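import Mathlib

/-!
# S13 / DP hedge: the two field identities behind the induction `D(j, k)`.
INTERFACE (statements frozen, owner helper19).  Pure field algebra.
-/

set_option autoImplicit false

namespace Fermat.Agent.S13.DPh

variable {K : Type*} [Field K]

/-- Algebra of the case `k = 2`: `A = W (j+2)`, `B = W (j-2)`. -/
theorem d2_alg (x1 x2 xj xj1 xjm1 w2 Wj Wj1 Wjm1 A B : K)
    (e0 : w2 ^ 2 * (x2 - xj) = (x1 - xj1) * (x1 - xjm1) * (xj - x1) ^ 2)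
    (e3 : A * Wj = -(xj1 - x1) * Wj1 ^ 2)
    (e4 : Wj * B = -(xjm1 - x1) * Wjm1 ^ 2)
    (e5 : Wj1 * Wjm1 = -(xj - x1) * Wj ^ 2)
    (hWj : Wj ≠ 0) :
    A * B = -(xj - x2) * Wj ^ 2 * w2 ^ 2 := by
  apply mul_left_cancel₀ (pow_ne_zero 2 hWj)
  linear_combination (Wj * B) * e3 + (-(xj1 - x1) * Wj1 ^ 2) * e4
    + ((xj1 - x1) * (xjm1 - x1) * (Wj1 * Wjm1 + (-(xj - x1) * Wj ^ 2))) * e5
    + (-(Wj ^ 4)) * e0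

/-- Algebra of the induction step `k → k + 1`: `A = W (j+k+1)`, `B = W (j-k-1)`,
`C = W (j+k-1)`, `E = W (j-k+1)`. -/
theorem step_alg (xj xk xk1 xkm1 xj1 xjm1 x1 Wj Wk Wk1 Wkm1 Wj1 Wjm1 A B C E : K)
    (e0 : (xj - xk1) * (xj - xkm1) * (xk - x1) ^ 2 = (xk - xj1) * (xk - xjm1) * (xj - x1) ^ 2)
    (e1 : C * E = -(xj - xkm1) * Wj ^ 2 * Wkm1 ^ 2)
    (e2 : Wk1 * Wkm1 = -(xk - x1) * Wk ^ 2)
    (e3 : A * E = -(xj1 - xk) * Wj1 ^ 2 * Wk ^ 2)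
    (e4 : C * B = -(xjm1 - xk) * Wjm1 ^ 2 * Wk ^ 2)
    (e5 : Wj1 * Wjm1 = -(xj - x1) * Wj ^ 2)
    (hWj : Wj ≠ 0) (hWk : Wk ≠ 0) (hC : C ≠ 0) (hE : E ≠ 0) :
    A * B = -(xj - xk1) * Wj ^ 2 * Wk1 ^ 2 := by
  have hW : Wkm1 ≠ 0 := by
    rintro rfl
    exact mul_ne_zero hC hE (by rw [e1]; ring)
  have s1 : (A * E) * (C * B) = (xj1 - xk) * (xjm1 - xk) * (Wj1 * Wjm1) ^ 2 * Wk ^ 4 := by
    rw [e3, e4]; ring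
  have s2 : (Wj1 * Wjm1) ^ 2 = (xj - x1) ^ 2 * Wj ^ 4 := by
    rw [e5]; ring
  have s3 : (Wk1 * Wkm1) ^ 2 = (xk - x1) ^ 2 * Wk ^ 4 := by
    rw [e2]; ring
  apply mul_left_cancel₀ (mul_ne_zero (mul_ne_zero hC hE) (pow_ne_zero 2 hW))
  linear_combination Wkm1 ^ 2 * s1
    + (Wkm1 ^ 2 * (xj1 - xk) * (xjm1 - xk) * Wk ^ 4) * s2
    + (-(Wkm1 ^ 2 * Wj ^ 4 * Wk ^ 4)) * e0
    + (-(Wkm1 ^ 2 * Wj ^ 4 * (xj - xk1) * (xj - xkm1))) * s3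
    + ((xj - xk1) * Wj ^ 2 * Wk1 ^ 2 * Wkm1 ^ 2) * e1

end Fermat.Agent.S13.DPh
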