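import Fermat.Agent.S13.DPh.WBasic
import Fermat.Agent.S13.DPh.StepAlg

/-!
# S13 / DP hedge: the relation `D(j, k)`.  INTERFACE (statement frozen, owner helper19).
-/

set_option autoImplicit false

namespace Fermat.Agent.S13.DPh

variable {K : Type*} [Field K] {a b : K} {n : ℕ} {x : ℕ → K} {w2 : K}

/-- `D(j, k)`: `W (j+k) W (j-k) = -(x_j - x_k) W_j² W_k²` for `1 ≤ k < j`, `j + k ≤ n`. -/
theorem Hyp.D (h : Hyp a b n x w2) : ∀ k j : ℕ, 1 ≤ k → k < j → j + k ≤ n →
    Wseq x w2 (j + k) * Wseq x w2 (j - k) =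
      -(x j - x k) * Wseq x w2 j ^ 2 * Wseq x w2 k ^ 2 := by
  intro k
  induction k using Nat.strong_induction_on with
  | _ k ih =>
    intro j hk hkj hjk
    rcases Nat.lt_or_ge k 2 with hk2 | hk2
    · -- `k = 1`
      obtain rfl : k = 1 := by omega
      have := h.W_succ j (by omega) (by omega)
      rw [this, Wseq_one, one_pow, mul_one]
    rcases Nat.lt_or_ge k 3 with hk3 | hk3
    · -- `k = 2`
      obtain rfl : k = 2 := by omega
      obtain ⟨d, rfl⟩ : ∃ d, j = d + 3 := ⟨j - 3, by omega⟩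
      have e0 : w2 ^ 2 * (x 2 - x (d + 3)) =
          (x 1 - x (d + 4)) * (x 1 - x (d + 2)) * (x (d + 3) - x 1) ^ 2 := by
        have h1 := h.hdup (x (d + 3))
        have h2 := h.hadd (d + 3) 1 le_rfl (by omega) (by omega) (x 1)
        rw [show d + 3 + 1 = d + 4 from rfl, show d + 3 - 1 = d + 2 from rfl] at h2
        rw [h2, ← h1, F_comm12]
      have e3 : Wseq x w2 (d + 5) * Wseq x w2 (d + 3) =
          -(x (d + 4) - x 1) * Wseq x w2 (d + 4) ^ 2 :=
        h.W_succ (d + 4) (by omega) (by omega)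
      have e4 : Wseq x w2 (d + 3) * Wseq x w2 (d + 1) =
          -(x (d + 2) - x 1) * Wseq x w2 (d + 2) ^ 2 :=
        h.W_succ (d + 2) (by omega) (by omega)
      have e5 : Wseq x w2 (d + 4) * Wseq x w2 (d + 2) =
          -(x (d + 3) - x 1) * Wseq x w2 (d + 3) ^ 2 :=
        h.W_succ (d + 3) (by omega) (by omega)
      have hWj : Wseq x w2 (d + 3) ≠ 0 := h.W_ne_zero (d + 3) (by omega) (by omega)
      have key := d2_alg (x 1) (x 2) (x (d + 3)) (x (d + 4)) (x (d + 2)) w2
        (Wseq x w2 (d + 3)) (Wseq x w2 (d + 4)) (Wseq x w2 (d + 2))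
        (Wseq x w2 (d + 5)) (Wseq x w2 (d + 1)) e0 e3 e4 e5 hWj
      rw [show d + 3 + 2 = d + 5 from rfl, show d + 3 - 2 = d + 1 from rfl, Wseq_two]
      exact key
    · -- step: `k = m + 3`, previous index `m + 2 ≥ 2`
      obtain ⟨m, rfl⟩ : ∃ m, k = m + 3 := ⟨k - 3, by omega⟩
      obtain ⟨d, rfl⟩ : ∃ d, j = m + 4 + d := ⟨j - (m + 4), by omega⟩
      -- notation: previous `k₀ = m + 2`, `j = m + 4 + d`
      have e0 : (x (m + 4 + d) - x (m + 3)) * (x (m + 4 + d) - x (m + 1)) * (x (m + 2) - x 1) ^ 2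
          = (x (m + 2) - x (m + 5 + d)) * (x (m + 2) - x (m + 3 + d)) *
            (x (m + 4 + d) - x 1) ^ 2 := by
        have h1 := h.hadd (m + 2) 1 le_rfl (by omega) (by omega) (x (m + 4 + d))
        have h2 := h.hadd (m + 4 + d) 1 le_rfl (by omega) (by omega) (x (m + 2))
        rw [show m + 2 + 1 = m + 3 from rfl, show m + 2 - 1 = m + 1 from rfl] at h1
        rw [show m + 4 + d + 1 = m + 5 + d by omega,
          show m + 4 + d - 1 = m + 3 + d by omega] at h2
        rw [h1, h2, F_comm12]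
      have e1 : Wseq x w2 (2 * m + 5 + d) * Wseq x w2 (d + 3) =
          -(x (m + 4 + d) - x (m + 1)) * Wseq x w2 (m + 4 + d) ^ 2 * Wseq x w2 (m + 1) ^ 2 := by
        have := ih (m + 1) (by omega) (m + 4 + d) (by omega) (by omega) (by omega)
        rwa [show m + 4 + d + (m + 1) = 2 * m + 5 + d by omega,
          show m + 4 + d - (m + 1) = d + 3 by omega] at this
      have e2 : Wseq x w2 (m + 3) * Wseq x w2 (m + 1) =
          -(x (m + 2) - x 1) * Wseq x w2 (m + 2) ^ 2 :=
        h.W_succ (m + 2) (by omega) (by omega)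
      have e3 : Wseq x w2 (2 * m + 7 + d) * Wseq x w2 (d + 3) =
          -(x (m + 5 + d) - x (m + 2)) * Wseq x w2 (m + 5 + d) ^ 2 * Wseq x w2 (m + 2) ^ 2 := by
        have := ih (m + 2) (by omega) (m + 5 + d) (by omega) (by omega) (by omega)
        rwa [show m + 5 + d + (m + 2) = 2 * m + 7 + d by omega,
          show m + 5 + d - (m + 2) = d + 3 by omega] at this
      have e4 : Wseq x w2 (2 * m + 5 + d) * Wseq x w2 (d + 1) =
          -(x (m + 3 + d) - x (m + 2)) * Wseq x w2 (m + 3 + d) ^ 2 * Wseq x w2 (m + 2) ^ 2 := by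
        have := ih (m + 2) (by omega) (m + 3 + d) (by omega) (by omega) (by omega)
        rwa [show m + 3 + d + (m + 2) = 2 * m + 5 + d by omega,
          show m + 3 + d - (m + 2) = d + 1 by omega] at this
      have e5 : Wseq x w2 (m + 5 + d) * Wseq x w2 (m + 3 + d) =
          -(x (m + 4 + d) - x 1) * Wseq x w2 (m + 4 + d) ^ 2 := by
        have := h.W_succ (m + 4 + d) (by omega) (by omega)
        rwa [show m + 4 + d + 1 = m + 5 + d by omega,
          show m + 4 + d - 1 = m + 3 + d by omega] at this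
      have hWj : Wseq x w2 (m + 4 + d) ≠ 0 := h.W_ne_zero _ (by omega) (by omega)
      have hWk : Wseq x w2 (m + 2) ≠ 0 := h.W_ne_zero _ (by omega) (by omega)
      have hC : Wseq x w2 (2 * m + 5 + d) ≠ 0 := h.W_ne_zero _ (by omega) (by omega)
      have hE : Wseq x w2 (d + 3) ≠ 0 := h.W_ne_zero _ (by omega) (by omega)
      have key := step_alg (x (m + 4 + d)) (x (m + 2)) (x (m + 3)) (x (m + 1))
        (x (m + 5 + d)) (x (m + 3 + d)) (x 1)
        (Wseq x w2 (m + 4 + d)) (Wseq x w2 (m + 2)) (Wseq x w2 (m + 3)) (Wseq x w2 (m + 1))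
        (Wseq x w2 (m + 5 + d)) (Wseq x w2 (m + 3 + d))
        (Wseq x w2 (2 * m + 7 + d)) (Wseq x w2 (d + 1))
        (Wseq x w2 (2 * m + 5 + d)) (Wseq x w2 (d + 3))
        e0 e1 e2 e3 e4 e5 hWj hWk hC hE
      rw [show m + 4 + d + (m + 3) = 2 * m + 7 + d by omega,
        show m + 4 + d - (m + 3) = d + 1 by omega]
      exact key

end Fermat.Agent.S13.DPh
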