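import Mathlib
import Fermat.Agent.S05.Core.Formulas

/-!
# S13 / block DP, independent hedge (owner: helper19): common definitions.  Complete, no proofs missing.

Curve `Y² = X³ + a X² + b X` over a field `K`.
* `F a b u v w` : the symmetric biquadratic form with
  `(T - x(R+S)) (T - x(R-S)) (x_R - x_S)² = F T x_R x_S` and `F T x x = 4y² (x(2R) - T)`.
* `Wseq x w2` : the sequence `W 0 = 0`, `W 1 = 1`, `W 2 = w2`,
  `W (k+3) = -(x (k+2) - x 1) * W (k+2)² / W (k+1)` attached to `x : ℕ → K` (`x k = X(kP)`).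
* `Hyp a b n x w2` : the abstract hypotheses satisfied by `x k = X(kP)`, `w2 = 2 Y(P)` when
  `kP ≠ 0` for `1 ≤ k < n`.
* `psi3 a b X`, `prePsi4 a b X` : the values of `Ψ₃`, `preΨ₄` of the curve at `X`.
-/

set_option autoImplicit false

namespace Fermat.Agent.S13.DPh

/-- The symmetric biquadratic form of the curve `Y² = X³ + a X² + b X`. -/
def F {K : Type*} [Field K] (a b u v w : K) : K :=
  u ^ 2 * (v - w) ^ 2 - 2 * u * ((v + w) * (v * w + b) + 2 * a * v * w) + (v * w - b) ^ 2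

/-- The sequence `W` attached to `x : ℕ → K` and `w2`. -/
noncomputable def Wseq {K : Type*} [Field K] (x : ℕ → K) (w2 : K) : ℕ → K
  | 0 => 0
  | 1 => 1
  | 2 => w2
  | (k + 3) => -(x (k + 2) - x 1) * Wseq x w2 (k + 2) ^ 2 / Wseq x w2 (k + 1)

/-- The abstract hypotheses on `x k = X(kP)` (`1 ≤ k < n`) and `w2 = 2 Y(P)`. -/
structure Hyp {K : Type*} [Field K] (a b : K) (n : ℕ) (x : ℕ → K) (w2 : K) : Prop where
  hn : 5 ≤ n
  w2_ne : w2 ≠ 0
  hd : ∀ i j : ℕ, 1 ≤ i → i < j → i + j < n → x i ≠ x j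
  hadd : ∀ j k : ℕ, 1 ≤ k → k < j → j + k < n → ∀ T : K,
    (T - x (j + k)) * (T - x (j - k)) * (x j - x k) ^ 2 = F a b T (x j) (x k)
  hdup : ∀ T : K, F a b T (x 1) (x 1) = w2 ^ 2 * (x 2 - T)

/-- The value of `Ψ₃` of the curve `Y² = X³ + a X² + b X` at `X`. -/
def psi3 {K : Type*} [Field K] (a b X : K) : K :=
  3 * X ^ 4 + 4 * a * X ^ 3 + 6 * b * X ^ 2 - b ^ 2

/-- The value of `preΨ₄` of the curve `Y² = X³ + a X² + b X` at `X`. -/
def prePsi4 {K : Type*} [Field K] (a b X : K) : K :=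
  2 * X ^ 6 + 4 * a * X ^ 5 + 10 * b * X ^ 4 - 10 * b ^ 2 * X ^ 2 - 4 * a * b ^ 2 * X - 2 * b ^ 3

section

variable {K : Type*} [Field K] (x : ℕ → K) (w2 : K)

@[simp] theorem Wseq_zero : Wseq x w2 0 = 0 := by rw [Wseq]
@[simp] theorem Wseq_one : Wseq x w2 1 = 1 := by rw [Wseq]
@[simp] theorem Wseq_two : Wseq x w2 2 = w2 := by rw [Wseq]
theorem Wseq_add_three (k : ℕ) :
    Wseq x w2 (k + 3) = -(x (k + 2) - x 1) * Wseq x w2 (k + 2) ^ 2 / Wseq x w2 (k + 1) := by
  rw [Wseq]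

theorem F_comm12 (a b u v w : K) : F a b u v w = F a b v u w := by
  unfold F; ring

theorem F_comm23 (a b u v w : K) : F a b u v w = F a b u w v := by
  unfold F; ring

theorem F_comm13 (a b u v w : K) : F a b u v w = F a b w v u := by
  unfold F; ring

theorem F_diag (a b T X : K) :
    F a b T X X = (X ^ 2 - b) ^ 2 - 4 * T * (X ^ 3 + a * X ^ 2 + b * X) := by
  unfold F; ring

end

open Fermat.Agent.S05 in
/-- The `X`-coordinate of `k • P` (junk value `0` if `k • P = 0`). -/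
noncomputable def xs {K : Type*} [Field K] {α β : K} {G : Type*} [AddCommGroup G]
    (M : Model K α β G) (P : G) (k : ℕ) : K :=
  match M.coord (k • P) with
  | some (X, _) => X
  | none => 0

end Fermat.Agent.S13.DPh
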