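import Fermat.Agent.S13.DPh.Defs
import Fermat.Agent.S13.Iface.DP

/-!
# S13 / DP hedge: link with Mathlib's division polynomials.
INTERFACE (statement frozen, owner helper19).
-/

set_option autoImplicit false

namespace Fermat.Agent.S13.DPh

open Polynomial in
/-- For odd `n`, the value of `preΨ'ₙ` of the Legendre curve at a point `(X, Y)` of the curve is
the `n`-th term of the normalised EDS with parameters `2Y`, `Ψ₃(X)`, `preΨ₄(X)`. -/
theorem eval_preΨ'_odd {K : Type*} [Field K] (α β X Y : K)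
    (hXY : Y ^ 2 = X * (X - α) * (X - β)) {n : ℕ} (hn : Odd n) :
    ((Fermat.Agent.S13.legendre α β).preΨ' n).eval X =
      normEDS (2 * Y) (psi3 (-(α + β)) (α * β) X) (prePsi4 (-(α + β)) (α * β) X) (n : ℤ) := by
  have e2 : ((Fermat.Agent.S13.legendre α β).Ψ₂Sq).eval X = 4 * X * (X - α) * (X - β) := by
    simp only [WeierstrassCurve.Ψ₂Sq, WeierstrassCurve.b₂, WeierstrassCurve.b₄,
      WeierstrassCurve.b₆, Fermat.Agent.S13.legendre, eval_add, eval_mul, eval_C, eval_pow,
      eval_X]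
    ring
  have e3 : ((Fermat.Agent.S13.legendre α β).Ψ₃).eval X = psi3 (-(α + β)) (α * β) X := by
    simp only [WeierstrassCurve.Ψ₃, WeierstrassCurve.b₂, WeierstrassCurve.b₄,
      WeierstrassCurve.b₆, WeierstrassCurve.b₈, Fermat.Agent.S13.legendre, eval_add, eval_mul,
      eval_C, eval_pow, eval_X, eval_ofNat, psi3]
    ring
  have e4 : ((Fermat.Agent.S13.legendre α β).preΨ₄).eval X = prePsi4 (-(α + β)) (α * β) X := by
    simp only [WeierstrassCurve.preΨ₄, WeierstrassCurve.b₂, WeierstrassCurve.b₄,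
      WeierstrassCurve.b₆, WeierstrassCurve.b₈, Fermat.Agent.S13.legendre, eval_add, eval_mul,
      eval_C, eval_pow, eval_X, eval_ofNat, prePsi4]
    ring
  have h := map_preNormEDS' (evalRingHom X) ((Fermat.Agent.S13.legendre α β).Ψ₂Sq ^ 2)
    ((Fermat.Agent.S13.legendre α β).Ψ₃) ((Fermat.Agent.S13.legendre α β).preΨ₄) n
  rw [coe_evalRingHom, eval_pow] at h
  have h4 : (2 * Y) ^ 4 = ((Fermat.Agent.S13.legendre α β).Ψ₂Sq).eval X ^ 2 := by
    rw [e2]
    have : (2 * Y) ^ 4 = (4 * Y ^ 2) ^ 2 := by ring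
    rw [this, hXY]
    ring
  rw [normEDS_ofNat, if_neg (Nat.not_even_iff_odd.mpr hn), mul_one, WeierstrassCurve.preΨ', h,
    h4, e3, e4]

end Fermat.Agent.S13.DPh
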