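import Fermat.Agent.S13.DPh.Defs

/-!
# S13 / DP hedge: the hypotheses `Hyp` hold for `x k = X(kP)`.
INTERFACE (statements frozen, owner helper19).
-/

set_option autoImplicit false

namespace Fermat.Agent.S13.DPh

open Fermat.Agent.S05

variable {K : Type*} [Field K] {α β : K} {G : Type*} [AddCommGroup G]

theorem modelhyp_xs_of_coord (M : Model K α β G) {P : G} {k : ℕ} {X' Y' : K}
    (h : M.coord (k • P) = some (X', Y')) : xs M P k = X' := by
  unfold xs
  rw [h]

/-- `k • P` has coordinates `(xs M P k, _)` when it is nonzero. -/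
theorem coord_xs (M : Model K α β G) (P : G) (k : ℕ) (hk : k • P ≠ 0) :
    ∃ Yk : K, M.coord (k • P) = some (xs M P k, Yk) := by
  obtain ⟨Xk, Yk, hk'⟩ := M.exists_coord_of_ne_zero hk
  refine ⟨Yk, ?_⟩
  rw [modelhyp_xs_of_coord M hk']
  exact hk'

theorem xs_one (M : Model K α β G) {P : G} {X Y : K} (hP : M.coord P = some (X, Y)) :
    xs M P 1 = X := by
  apply modelhyp_xs_of_coord M (Y' := Y)
  rw [one_smul]
  exact hP

theorem modelhyp_Y_ne (M : Model K α β G) {P : G} {X Y : K} (hP : M.coord P = some (X, Y))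
    (h2' : 2 • P ≠ 0) : Y ≠ 0 := by
  intro hY
  subst hY
  apply h2'
  rw [two_nsmul]
  exact M.add_self_eq_zero_of_Y_eq_zero hP

theorem modelhyp_hd (M : Model K α β G) {P : G} {n : ℕ}
    (h : ∀ k : ℕ, 1 ≤ k → k < n → k • P ≠ 0) (i j : ℕ) (hi : 1 ≤ i) (hij : i < j)
    (hn : i + j < n) : xs M P i ≠ xs M P j := by
  intro heq
  obtain ⟨Yi, hci⟩ := coord_xs M P i (h i hi (by omega))
  obtain ⟨Yj, hcj⟩ := coord_xs M P j (h j (by omega) (by omega))
  rw [← heq] at hcj
  rcases M.eq_or_eq_neg_of_X_eq hci hcj with e | e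
  · obtain ⟨d, rfl⟩ : ∃ d, j = i + d := ⟨j - i, by omega⟩
    rw [add_nsmul] at e
    have hd0 : d • P = 0 := by
      have e' : i • P + d • P = i • P + 0 := by rw [e, add_zero]
      exact add_left_cancel e'
    exact h d (by omega) (by omega) hd0
  · have h0 : (i + j) • P = 0 := by
      rw [add_nsmul, e]
      exact add_neg_cancel _
    exact h (i + j) (by omega) hn h0

/-- The abstract hypotheses hold. -/
theorem hyp_of_model (h2 : (2 : K) ≠ 0) (M : Model K α β G) {P : G} {X Y : K}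
    (hP : M.coord P = some (X, Y)) {n : ℕ} (hn5 : 5 ≤ n)
    (h : ∀ k : ℕ, 1 ≤ k → k < n → k • P ≠ 0) :
    Hyp (-(α + β)) (α * β) n (xs M P) (2 * Y) := by
  have hY : Y ≠ 0 := modelhyp_Y_ne M hP (h 2 (by omega) (by omega))
  refine ⟨hn5, mul_ne_zero h2 hY, modelhyp_hd M h, ?_, ?_⟩
  · intro j k hk hkj hjk T
    have hne : xs M P j ≠ xs M P k := (modelhyp_hd M h k j hk hkj (by omega)).symm
    obtain ⟨Yj, hcj⟩ := coord_xs M P j (h j (by omega) (by omega))
    obtain ⟨Yk, hck⟩ := coord_xs M P k (h k hk (by omega))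
    obtain ⟨Xp, Yp, Xm, Ym, hp, hm, hs, hpr⟩ := M.exists_coord_add_sub hcj hck hne
    rw [← add_nsmul] at hp
    have hsub : j • P - k • P = (j - k) • P := by
      rw [sub_nsmul P (le_of_lt hkj), sub_eq_add_neg]
    rw [hsub] at hm
    rw [modelhyp_xs_of_coord M hp, modelhyp_xs_of_coord M hm]
    have hD : (xs M P j - xs M P k) ^ 2 ≠ 0 := pow_ne_zero 2 (sub_ne_zero.mpr hne)
    rw [eq_div_iff hD] at hs hpr
    unfold F
    linear_combination (-T) * hs + hpr
  · intro T
    obtain ⟨Y3, h3⟩ := M.exists_coord_two h2 hP hY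
    rw [← two_nsmul] at h3
    rw [xs_one M hP, modelhyp_xs_of_coord M h3, F_diag]
    have e := M.equation hP
    have h4 : (4 : K) * Y ^ 2 ≠ 0 := by
      have h4' : (4 : K) = 2 * 2 := by norm_num
      rw [h4']
      exact mul_ne_zero (mul_ne_zero h2 h2) (pow_ne_zero 2 hY)
    have e2 : 4 * Y ^ 2 * ((X ^ 2 - α * β) ^ 2 / (4 * Y ^ 2)) = (X ^ 2 - α * β) ^ 2 :=
      mul_div_cancel₀ _ h4
    linear_combination (-1 : K) * e2 + 4 * T * e

/-- `X((n-1)P) = X(P) ↔ nP = 0`. -/
theorem xs_eq_iff (h2 : (2 : K) ≠ 0) (M : Model K α β G) {P : G} {X Y : K}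
    (hP : M.coord P = some (X, Y)) {n : ℕ} (hn5 : 5 ≤ n)
    (h : ∀ k : ℕ, 1 ≤ k → k < n → k • P ≠ 0) :
    xs M P (n - 1) = xs M P 1 ↔ n • P = 0 := by
  constructor
  · intro heq
    obtain ⟨m, rfl⟩ : ∃ m, n = m + 2 := ⟨n - 2, by omega⟩
    have e1 : m + 2 - 1 = m + 1 := by omega
    rw [e1, xs_one M hP] at heq
    obtain ⟨Y', hc⟩ := coord_xs M P (m + 1) (h (m + 1) (by omega) (by omega))
    rw [heq] at hc
    rcases M.eq_or_eq_neg_of_X_eq hP hc with e | e
    · exfalso
      rw [succ_nsmul] at e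
      have hm0 : m • P = 0 := by
        have e' : m • P + P = 0 + P := by rw [e, zero_add]
        exact add_right_cancel e'
      exact h m (by omega) (by omega) hm0
    · rw [show m + 2 = (m + 1) + 1 from rfl, succ_nsmul, e]
      exact neg_add_cancel P
  · intro hn
    obtain ⟨m, rfl⟩ : ∃ m, n = m + 1 := ⟨n - 1, by omega⟩
    rw [succ_nsmul] at hn
    have e : m • P = -P := eq_neg_of_add_eq_zero_left hn
    have hc : M.coord (m • P) = some (X, -Y) := by
      rw [e]
      exact M.coord_neg hP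
    rw [Nat.add_sub_cancel, modelhyp_xs_of_coord M hc, xs_one M hP]

end Fermat.Agent.S13.DPh
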