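import Fermat.Agent.S13.DPh.WBasic

/-!
# S13 / DP hedge: `W 4 = w2 · preΨ₄(x₁)`.  INTERFACE (statement frozen, owner helper19).
-/

set_option autoImplicit false

namespace Fermat.Agent.S13.DPh

variable {K : Type*} [Field K] {a b : K} {n : ℕ} {x : ℕ → K} {w2 : K}

/-- Pure algebra behind `W_four`. -/
theorem wfour_aux1 (a b x1 x3 u t : K)
    (hsum : (x3 + x1) * (u - x1) ^ 2 = 2 * ((u + x1) * (u * x1 + b) + 2 * a * u * x1))
    (e1 : t * u = (x1 ^ 2 - b) ^ 2)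
    (e2 : t = 4 * (x1 ^ 3 + a * x1 ^ 2 + b * x1)) :
    -(x3 - x1) * (-(u - x1) * t) ^ 2 = t * prePsi4 a b x1 := by
  obtain ⟨q, hq⟩ : ∃ q, q = t * u := ⟨_, rfl⟩
  have step1 : -(x3 - x1) * (-(u - x1) * t) ^ 2
      = -2 * ((q + x1 * t) * (q * x1 + b * t) + 2 * a * q * x1 * t - x1 * (q - x1 * t) ^ 2) := by
    rw [hq]
    linear_combination (-(t ^ 2)) * hsum
  rw [step1]
  have hqN : q = (x1 ^ 2 - b) ^ 2 := by rw [hq, e1]
  rw [hqN, e2]
  unfold prePsi4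
  ring

/-- `W 4 = w2 · preΨ₄(x₁)`. -/
theorem Hyp.W_four (h : Hyp a b n x w2) : Wseq x w2 4 = w2 * prePsi4 a b (x 1) := by
  have hw : w2 ≠ 0 := h.w2_ne
  have A := h.w2_sq
  have B := h.w2_sq_mul_x2
  have h3 : Wseq x w2 3 = -(x 2 - x 1) * w2 ^ 2 := by
    have h3' := Wseq_add_three x w2 0
    simpa using h3'
  have h4 : Wseq x w2 4 = -(x 3 - x 1) * Wseq x w2 3 ^ 2 / w2 := by
    have h4' := Wseq_add_three x w2 1
    simpa using h4'
  have hn := h.hn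
  have hadd : ∀ T : K, (T - x 3) * (T - x 1) * (x 2 - x 1) ^ 2 = F a b T (x 2) (x 1) :=
    h.hadd 2 1 le_rfl (by norm_num) (by omega)
  have e1 := hadd 1
  have e0 := hadd 0
  unfold F at e1 e0
  have hsum : (x 3 + x 1) * (x 2 - x 1) ^ 2
      = 2 * ((x 2 + x 1) * (x 2 * x 1 + b) + 2 * a * x 2 * x 1) := by
    linear_combination e0 - e1
  have key : Wseq x w2 4 * w2 = w2 ^ 2 * prePsi4 a b (x 1) := by
    rw [h4, div_mul_cancel₀ _ hw, h3]
    exact wfour_aux1 a b (x 1) (x 3) (x 2) (w2 ^ 2) hsum B A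
  apply mul_right_cancel₀ hw
  rw [key]
  ring

end Fermat.Agent.S13.DPh
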