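import Fermat.Agent.S13.DPh.NormEDS
import Fermat.Agent.S13.DPh.WFour
import Fermat.Agent.S13.DPh.EvalPsi
import Fermat.Agent.S13.DPh.ModelHyp

/-!
# S13 / block DP, independent hedge (owner helper19): assembly.
`Fermat.Agent.S13.DPh.DP_torsion'` has exactly the statement of `Fermat.Agent.S13.DP_torsion`.
-/

set_option autoImplicit false

namespace Fermat.Agent.S13.DPh

open Fermat.Agent.S05 Polynomial

theorem DP_torsion' {K : Type*} [Field K] (h2 : (2 : K) ≠ 0) {α β : K} {G : Type*}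
    [AddCommGroup G] (M : Model K α β G) {P : G} {X Y : K} (hP : M.coord P = some (X, Y))
    {n : ℕ} (hn : Odd n) (hn5 : 5 ≤ n) (h : ∀ k : ℕ, 1 ≤ k → k < n → k • P ≠ 0) :
    ((legendre α β).preΨ' n).eval X = 0 ↔ n • P = 0 := by
  have hyp := hyp_of_model h2 M hP hn5 h
  have hx1 := xs_one M hP
  rw [eval_preΨ'_odd α β X Y (M.equation hP) hn]
  have hW := hyp.W_eq_normEDS n le_rfl
  rw [hyp.W_three, hyp.W_four, hx1, mul_div_cancel_left₀ _ hyp.w2_ne] at hW
  rw [← hW, hyp.W_n_eq_zero_iff]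
  exact xs_eq_iff h2 M hP hn5 h

end Fermat.Agent.S13.DPh
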