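import Fermat.Agent.S13.DPh.Rules

/-!
# S13 / DP hedge: `W` is a normalised EDS on `[0, n]`.  INTERFACE (statement frozen, owner helper19).
-/

set_option autoImplicit false

namespace Fermat.Agent.S13.DPh

/-- Uniqueness: a sequence with `W 0 = 0`, `W 1 = 1`, `W 2 = b ≠ 0`, `W 3 = c`, `W 4 = d * b`
satisfying the odd and even rules up to the index `N` agrees with `normEDS b c d` up to `N`. -/
theorem normeds_unique {K : Type*} [Field K] (b c d : K) (hb : b ≠ 0) (N : ℕ)
    (W : ℕ → K) (h0 : W 0 = 0) (h1 : W 1 = 1) (h2 : W 2 = b) (h3 : W 3 = c) (h4 : W 4 = d * b)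
    (hodd : ∀ m : ℕ, 2 ≤ m → 2 * m + 1 ≤ N →
      W (2 * m + 1) = W (m + 2) * W m ^ 3 - W (m - 1) * W (m + 1) ^ 3)
    (heven : ∀ m : ℕ, 3 ≤ m → 2 * m ≤ N →
      W (2 * m) * b = W m * (W (m + 2) * W (m - 1) ^ 2 - W (m - 2) * W (m + 1) ^ 2)) :
    ∀ k : ℕ, k ≤ N → W k = normEDS b c d (k : ℤ) := by
  intro k
  induction k using Nat.strong_induction_on with
  | _ k ih =>
    intro hk
    rcases Nat.even_or_odd' k with ⟨m, rfl | rfl⟩
    · -- `k = 2 m`
      by_cases hm : 3 ≤ m
      · have e := heven m hm hk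
        have IH : ∀ j : ℕ, j < 2 * m → W j = normEDS b c d (j : ℤ) :=
          fun j hj => ih j hj (by omega)
        rw [IH m (by omega), IH (m + 2) (by omega), IH (m - 1) (by omega), IH (m - 2) (by omega),
          IH (m + 1) (by omega)] at e
        have e' := normEDS_even b c d (m : ℤ)
        apply mul_right_cancel₀ hb
        rw [e]
        have c1 : ((m - 1 : ℕ) : ℤ) = (m : ℤ) - 1 := by omega
        have c2 : ((m - 2 : ℕ) : ℤ) = (m : ℤ) - 2 := by omega
        have c3 : ((m + 2 : ℕ) : ℤ) = (m : ℤ) + 2 := by omega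
        have c4 : ((m + 1 : ℕ) : ℤ) = (m : ℤ) + 1 := by omega
        have c5 : ((2 * m : ℕ) : ℤ) = 2 * (m : ℤ) := by omega
        rw [c1, c2, c3, c4, c5, e']
        ring
      · have hm' : m = 0 ∨ m = 1 ∨ m = 2 := by omega
        rcases hm' with rfl | rfl | rfl
        · simpa using h0
        · simpa using h2
        · simpa using h4
    · -- `k = 2 m + 1`
      by_cases hm : 2 ≤ m
      · have e := hodd m hm hk
        have IH : ∀ j : ℕ, j < 2 * m + 1 → W j = normEDS b c d (j : ℤ) :=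
          fun j hj => ih j hj (by omega)
        rw [IH (m + 2) (by omega), IH m (by omega), IH (m - 1) (by omega),
          IH (m + 1) (by omega)] at e
        have e' := normEDS_odd b c d (m : ℤ)
        have c1 : ((m - 1 : ℕ) : ℤ) = (m : ℤ) - 1 := by omega
        have c3 : ((m + 2 : ℕ) : ℤ) = (m : ℤ) + 2 := by omega
        have c4 : ((m + 1 : ℕ) : ℤ) = (m : ℤ) + 1 := by omega
        have c5 : ((2 * m + 1 : ℕ) : ℤ) = 2 * (m : ℤ) + 1 := by omega
        rw [e, c1, c3, c4, c5, e']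
      · have hm' : m = 0 ∨ m = 1 := by omega
        rcases hm' with rfl | rfl
        · simpa using h1
        · simpa using h3

variable {K : Type*} [Field K] {a b : K} {n : ℕ} {x : ℕ → K} {w2 : K}

/-- `W k = normEDS w2 (W 3) (W 4 / w2) k` for `k ≤ n`. -/
theorem Hyp.W_eq_normEDS (h : Hyp a b n x w2) : ∀ k : ℕ, k ≤ n →
    Wseq x w2 k = normEDS w2 (Wseq x w2 3) (Wseq x w2 4 / w2) (k : ℤ) := by
  refine normeds_unique w2 (Wseq x w2 3) (Wseq x w2 4 / w2) h.w2_ne n (Wseq x w2)
    (Wseq_zero x w2) (Wseq_one x w2) (Wseq_two x w2) rfl (div_mul_cancel₀ _ h.w2_ne).symm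
    (fun m hm hmn => h.odd_rule m hm hmn) ?_
  intro m hm hmn
  rw [h.even_rule m hm hmn]
  ring

end Fermat.Agent.S13.DPh
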