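import Fermat.Agent.S13.DPh.DInd

/-!
# S13 / DP hedge: the odd and even duplication rules for `W`.
INTERFACE (statements frozen, owner helper19).
-/

set_option autoImplicit false

namespace Fermat.Agent.S13.DPh

variable {K : Type*} [Field K] {a b : K} {n : ℕ} {x : ℕ → K} {w2 : K}

/-- Odd rule: `W (2m+1) = W (m+2) W m³ - W (m-1) W (m+1)³`. -/
theorem Hyp.odd_rule (h : Hyp a b n x w2) : ∀ m : ℕ, 2 ≤ m → 2 * m + 1 ≤ n →
    Wseq x w2 (2 * m + 1) =
      Wseq x w2 (m + 2) * Wseq x w2 m ^ 3 - Wseq x w2 (m - 1) * Wseq x w2 (m + 1) ^ 3 := by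
  intro m hm hmn
  have d := h.D m (m + 1) (by omega) (by omega) (by omega)
  have s1 := h.W_succ (m + 1) (by omega) (by omega)
  have s2 := h.W_succ m hm (by omega)
  have e1 : m + 1 + m = 2 * m + 1 := by omega
  have e2 : m + 1 - m = 1 := by omega
  have e3 : m + 1 + 1 = m + 2 := by omega
  have e4 : m + 1 - 1 = m := by omega
  rw [e1, e2, Wseq_one] at d
  rw [e3, e4] at s1
  linear_combination d - (Wseq x w2 m ^ 2) * s1 + (Wseq x w2 (m + 1) ^ 2) * s2

/-- Even rule: `W (2m) W 2 = W (m-1)² W m W (m+2) - W (m-2) W m W (m+1)²`. -/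
theorem Hyp.even_rule (h : Hyp a b n x w2) : ∀ m : ℕ, 3 ≤ m → 2 * m ≤ n →
    Wseq x w2 (2 * m) * w2 =
      Wseq x w2 (m - 1) ^ 2 * Wseq x w2 m * Wseq x w2 (m + 2) -
        Wseq x w2 (m - 2) * Wseq x w2 m * Wseq x w2 (m + 1) ^ 2 := by
  intro m hm hmn
  have d := h.D (m - 1) (m + 1) (by omega) (by omega) (by omega)
  have s1 := h.W_succ (m + 1) (by omega) (by omega)
  have s2 := h.W_succ (m - 1) (by omega) (by omega)
  have e1 : m + 1 + (m - 1) = 2 * m := by omega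
  have e2 : m + 1 - (m - 1) = 2 := by omega
  have e3 : m + 1 + 1 = m + 2 := by omega
  have e4 : m + 1 - 1 = m := by omega
  have e5 : m - 1 + 1 = m := by omega
  have e6 : m - 1 - 1 = m - 2 := by omega
  rw [e1, e2, Wseq_two] at d
  rw [e3, e4] at s1
  rw [e5, e6] at s2
  linear_combination d - (Wseq x w2 (m - 1) ^ 2) * s1 + (Wseq x w2 (m + 1) ^ 2) * s2

end Fermat.Agent.S13.DPh
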