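import Fermat.Agent.S13.DPh.Defs

/-!
# S13 / DP hedge: basic facts on the sequence `W`.  INTERFACE (statements frozen, owner helper19).
-/

set_option autoImplicit false

namespace Fermat.Agent.S13.DPh

variable {K : Type*} [Field K] {a b : K} {n : ℕ} {x : ℕ → K} {w2 : K}

/-- `W k ≠ 0` for `1 ≤ k < n`. -/
theorem Hyp.W_ne_zero (h : Hyp a b n x w2) : ∀ k : ℕ, 1 ≤ k → k < n → Wseq x w2 k ≠ 0 := by
  intro k
  induction k using Nat.strong_induction_on with
  | _ k ih =>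
    intro hk1 hkn
    match k, ih, hk1, hkn with
    | 0, _, hk1, _ => omega
    | 1, _, _, _ => rw [Wseq_one]; exact one_ne_zero
    | 2, _, _, _ => rw [Wseq_two]; exact h.w2_ne
    | (m + 3), ih, _, hkn =>
      rw [Wseq_add_three]
      have h1 : Wseq x w2 (m + 2) ≠ 0 := ih (m + 2) (by omega) (by omega) (by omega)
      have h2 : Wseq x w2 (m + 1) ≠ 0 := ih (m + 1) (by omega) (by omega) (by omega)
      have h3 : x 1 ≠ x (m + 2) := h.hd 1 (m + 2) le_rfl (by omega) (by omega)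
      exact div_ne_zero (mul_ne_zero (neg_ne_zero.mpr (sub_ne_zero.mpr (Ne.symm h3)))
        (pow_ne_zero 2 h1)) h2

/-- `D(j, 1)`: the defining recurrence in product form. -/
theorem Hyp.W_succ (h : Hyp a b n x w2) : ∀ j : ℕ, 2 ≤ j → j < n →
    Wseq x w2 (j + 1) * Wseq x w2 (j - 1) = -(x j - x 1) * Wseq x w2 j ^ 2 := by
  intro j hj hjn
  obtain ⟨m, rfl⟩ : ∃ m, j = m + 2 := ⟨j - 2, by omega⟩
  have e1 : m + 2 + 1 = m + 3 := by omega
  have e2 : m + 2 - 1 = m + 1 := by omega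
  have h2 : Wseq x w2 (m + 1) ≠ 0 := h.W_ne_zero (m + 1) (by omega) (by omega)
  rw [e1, e2, Wseq_add_three, div_mul_cancel₀ _ h2]

/-- `W n = 0 ↔ x (n - 1) = x 1`. -/
theorem Hyp.W_n_eq_zero_iff (h : Hyp a b n x w2) : Wseq x w2 n = 0 ↔ x (n - 1) = x 1 := by
  have hn := h.hn
  obtain ⟨m, hm⟩ : ∃ m, n = m + 3 := ⟨n - 3, by omega⟩
  have h1 : Wseq x w2 (m + 2) ≠ 0 := h.W_ne_zero (m + 2) (by omega) (by omega)
  have h2 : Wseq x w2 (m + 1) ≠ 0 := h.W_ne_zero (m + 1) (by omega) (by omega)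
  have e : n - 1 = m + 2 := by omega
  rw [e, hm, Wseq_add_three]
  constructor
  · intro h0
    rw [div_eq_zero_iff] at h0
    rcases h0 with h0 | h0
    · rcases mul_eq_zero.mp h0 with h0 | h0
      · exact sub_eq_zero.mp (neg_eq_zero.mp h0)
      · exact absurd (pow_eq_zero_iff (two_ne_zero) |>.mp h0) h1
    · exact absurd h0 h2
  · intro h0
    rw [h0, sub_self, neg_zero, zero_mul, zero_div]

/-- `w2² = 4 (x₁³ + a x₁² + b x₁)` (compare the coefficients of `T` in `hdup`). -/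
theorem Hyp.w2_sq (h : Hyp a b n x w2) : w2 ^ 2 = 4 * (x 1 ^ 3 + a * x 1 ^ 2 + b * x 1) := by
  have h0 := h.hdup 0
  have h1 := h.hdup 1
  rw [F_diag] at h0 h1
  linear_combination h1 - h0

/-- `w2² x₂ = (x₁² - b)²` (`hdup` at `T = 0`). -/
theorem Hyp.w2_sq_mul_x2 (h : Hyp a b n x w2) : w2 ^ 2 * x 2 = (x 1 ^ 2 - b) ^ 2 := by
  have h0 := h.hdup 0
  rw [F_diag] at h0
  linear_combination -h0

/-- `W 3 = Ψ₃(x₁)`. -/
theorem Hyp.W_three (h : Hyp a b n x w2) : Wseq x w2 3 = psi3 a b (x 1) := by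
  have h3 : Wseq x w2 3 = -(x 2 - x 1) * w2 ^ 2 := by
    have := Wseq_add_three x w2 0
    simpa using this
  rw [h3]
  unfold psi3
  linear_combination (x 1) * h.w2_sq - h.w2_sq_mul_x2

end Fermat.Agent.S13.DPh
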